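/-
S41 (level raising), block SK, part 3: simultaneous eigenvectors of commuting families, with
prescribed non-vanishing of the eigencharacter on a multiplicative set.
-/
import Mathlib

namespace Fermat.Agent.S41lib.SK

open Module

section Common

variable {k V : Type*} [Field k] [IsAlgClosed k] [AddCommGroup V] [Module k V]
  [FiniteDimensional k V] {ι : Type*}

/-- A commuting family of endomorphisms of a finite-dimensional vector space over an algebraically
closed field has a common eigenvector in every nonzero stable subspace. -/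
theorem exists_common_eigenvector (f : ι → Module.End k V) (hcomm : ∀ i j, Commute (f i) (f j))
    (W : Submodule k V) (hW : W ≠ ⊥) (hstab : ∀ i, ∀ w ∈ W, f i w ∈ W) :
    ∃ v ∈ W, v ≠ 0 ∧ ∃ χ : ι → k, ∀ i, f i v = χ i • v := by
  induction h : Module.finrank k W using Nat.strong_induction_on generalizing W with
  | _ n ih =>
  by_cases hsc : ∀ i, ∃ c : k, ∀ w ∈ W, f i w = c • w
  · choose χ hχ using hsc
    obtain ⟨v, hvW, hv0⟩ := Submodule.exists_mem_ne_zero_of_ne_bot hW
    exact ⟨v, hvW, hv0, χ, fun i => hχ i v hvW⟩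
  · push Not at hsc
    obtain ⟨i, hi⟩ := hsc
    have : Nontrivial W := Submodule.nontrivial_iff_ne_bot.mpr hW
    obtain ⟨μ, hμ⟩ := Module.End.exists_eigenvalue ((f i).restrict (hstab i))
    obtain ⟨w, hw⟩ := hμ.exists_hasEigenvector
    have hw1 : f i (w : V) = μ • (w : V) := by
      have := hw.apply_eq_smul
      exact congrArg Subtype.val this
    have hw0 : (w : V) ≠ 0 := fun h0 => hw.2 (Subtype.ext h0)
    set W' : Submodule k V := W ⊓ Module.End.eigenspace (f i) μ with hW'
    have hwW' : (w : V) ∈ W' :=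
      ⟨w.2, Module.End.mem_eigenspace_iff.mpr hw1⟩
    have hW'ne : W' ≠ ⊥ := fun hbot => hw0 (by
      have : (w : V) ∈ (⊥ : Submodule k V) := hbot ▸ hwW'
      simpa using this)
    have hW'lt : W' < W := by
      refine lt_of_le_of_ne inf_le_left (fun heq => ?_)
      obtain ⟨x, hxW, hx⟩ := hi μ
      apply hx
      have : x ∈ W' := heq ▸ hxW
      exact Module.End.mem_eigenspace_iff.mp this.2
    have hstab' : ∀ j, ∀ x ∈ W', f j x ∈ W' := by
      intro j x hx
      refine ⟨hstab j x hx.1, Module.End.mem_eigenspace_iff.mpr ?_⟩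
      have h1 : f i x = μ • x := Module.End.mem_eigenspace_iff.mp hx.2
      have h2 : f i (f j x) = f j (f i x) := by
        have := (hcomm i j).eq
        exact congrFun (congrArg DFunLike.coe this) x
      rw [h2, h1, map_smul]
    obtain ⟨v, hvW', hv0, χ, hχ⟩ :=
      ih (Module.finrank k W') (h ▸ Submodule.finrank_lt_finrank_of_lt hW'lt) W' hW'ne hstab' rfl
    exact ⟨v, hvW'.1, hv0, χ, hχ⟩

end Common

section Avoid

variable {k V R : Type*} [Field k] [IsAlgClosed k] [AddCommGroup V] [Module k V]
  [FiniteDimensional k V] [CommRing R]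

/-- Fitting: an endomorphism is injective on the image of its `finrank`-th power. -/
theorem eq_zero_of_mem_range_pow_finrank {k V : Type*} [Field k] [AddCommGroup V] [Module k V]
    [FiniteDimensional k V] (g : Module.End k V) (w : V)
    (hw : w ∈ LinearMap.range (g ^ Module.finrank k V)) (hgw : g w = 0) : w = 0 := by
  obtain ⟨w', rfl⟩ := hw
  have h1 : w' ∈ LinearMap.ker (g ^ (Module.finrank k V + 1)) := by
    rw [LinearMap.mem_ker, pow_succ', Module.End.mul_apply]
    exact hgw
  rw [Module.End.ker_pow_eq_ker_pow_finrank_of_le (Nat.le_succ _)] at h1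
  exact h1

/-- Let a commutative ring `R` act on a finite-dimensional vector space over an algebraically closed
field, and let `S` be a multiplicative subset of `R` no element of which acts by zero.  Then there
is a common eigenvector whose eigencharacter does not vanish on `S`. -/
theorem exists_eigenvector_ne_zero_on (ρ : R →+* Module.End k V) (S : Submonoid R)
    (hS : ∀ s ∈ S, ρ s ≠ 0) :
    ∃ (v : V) (χ : R → k), v ≠ 0 ∧ (∀ r, ρ r v = χ r • v) ∧ ∀ s ∈ S, χ s ≠ 0 := by
  classical
  set n := Module.finrank k V with hn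
  let Rg : S → Submodule k V := fun s => LinearMap.range (ρ (s : R) ^ n)
  let g : Finset S → Submodule k V := fun F => ⨅ s ∈ F, Rg s
  -- a finite subfamily with minimal intersection
  let F₀ : Finset S := Function.argmin (fun F => Module.finrank k (g F))
  have hF₀ : ∀ F, Module.finrank k (g F₀) ≤ Module.finrank k (g F) :=
    fun F => Function.argmin_le (fun F => Module.finrank k (g F)) F
  have hle : ∀ s : S, g F₀ ≤ Rg s := by
    intro s
    have h1 : g (insert s F₀) ≤ g F₀ := by
      apply le_iInf₂
      intro s' hs'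
      exact iInf₂_le s' (Finset.mem_insert_of_mem hs')
    have h2 : g (insert s F₀) = g F₀ := Submodule.eq_of_le_of_finrank_le h1 (hF₀ _)
    rw [← h2]
    exact iInf₂_le s (Finset.mem_insert_self s F₀)
  -- the product of the finite subfamily
  set s₀ : S := ∏ s ∈ F₀, s with hs₀
  have hrange : LinearMap.range (ρ (s₀ : R) ^ n) ≤ g F₀ := by
    apply le_iInf₂
    intro s hs
    have hmul : (s₀ : R) = (s : R) * ((∏ s' ∈ F₀.erase s, s' : S) : R) := by
      rw [hs₀, ← Finset.mul_prod_erase F₀ _ hs]
      simp
    have hc : Commute (ρ (s : R)) (ρ ((∏ s' ∈ F₀.erase s, s' : S) : R)) := (Commute.all _ _).map ρ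
    rw [hmul, map_mul, hc.mul_pow]
    exact LinearMap.range_comp_le_range _ _
  have hg0 : g F₀ ≠ ⊥ := by
    intro hbot
    have h1 : LinearMap.range (ρ (s₀ : R) ^ n) = ⊥ := eq_bot_iff.mpr (hbot ▸ hrange)
    have h2 : ρ (((s₀ ^ n : S) : S) : R) = 0 := by
      rw [SubmonoidClass.coe_pow, map_pow]
      exact LinearMap.range_eq_bot.mp h1
    exact hS _ (s₀ ^ n : S).2 h2
  -- stability
  have hstab : ∀ r : R, ∀ w ∈ g F₀, ρ r w ∈ g F₀ := by
    intro r w hw
    simp only [g, Submodule.mem_iInf] at hw ⊢
    intro s hs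
    obtain ⟨w', hw'⟩ := hw s hs
    refine ⟨ρ r w', ?_⟩
    rw [← hw']
    have hc : Commute (ρ (s : R) ^ n) (ρ r) := by
      rw [← map_pow]
      exact (Commute.all ((s : R) ^ n) r).map ρ
    exact congrFun (congrArg DFunLike.coe hc.eq) w'
  obtain ⟨v, hvW, hv0, χ, hχ⟩ := exists_common_eigenvector (fun r : R => ρ r)
    (fun r r' => (Commute.all r r').map ρ) (g F₀) hg0 hstab
  refine ⟨v, χ, hv0, hχ, ?_⟩
  intro s hs hχs
  apply hv0
  apply eq_zero_of_mem_range_pow_finrank (ρ s) v
  · exact hle ⟨s, hs⟩ hvW
  · rw [hχ s, hχs, zero_smul]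

end Avoid

end Fermat.Agent.S41lib.SK
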