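/-
S41 (level raising), block SK, part 4: the Deligne–Serre lifting lemma in the form needed here.
A commutative ring `T` acts on a finite-dimensional complex vector space `V` through integral
operators; `θ : T → 𝔽_p` is a character such that every `t` acting by zero has `θ t = 0`.
Then there is a common eigenvector whose eigencharacter `λ : T → ℤ̄` reduces to `θ` modulo a
maximal ideal of `ℤ̄` above `p`.
-/
import Mathlib
import Fermat.Agent.S41lib.SK.Eigen

namespace Fermat.Agent.S41lib.SK

open Module Polynomial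

/-- **Deligne–Serre lifting.** -/
theorem exists_eigenvector_lift {T V : Type*} [CommRing T] [AddCommGroup V] [Module ℂ V]
    [FiniteDimensional ℂ V] (ρ : T →+* Module.End ℂ V) {p : ℕ} [Fact p.Prime] (θ : T →+* ZMod p)
    (hint : ∀ t : T, ∃ P : Polynomial ℤ, P.Monic ∧ Polynomial.aeval (ρ t) P = 0)
    (hann : ∀ t : T, ρ t = 0 → θ t = 0) :
    ∃ (lam : T →+* integralClosure ℤ ℂ) (𝔪' : Ideal (integralClosure ℤ ℂ)) (v : V),
      𝔪'.IsMaximal ∧ (p : integralClosure ℤ ℂ) ∈ 𝔪' ∧
      (∀ (t : T) (n : ℤ), θ t = (n : ZMod p) → lam t - (n : integralClosure ℤ ℂ) ∈ 𝔪') ∧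
      v ≠ 0 ∧ ∀ t : T, ρ t v = ((lam t : integralClosure ℤ ℂ) : ℂ) • v := by
  classical
  have hprime : (RingHom.ker θ).IsPrime := RingHom.ker_isPrime θ
  have hmax : (RingHom.ker θ).IsMaximal :=
    RingHom.ker_isMaximal_of_surjective θ (ZMod.ringHom_surjective θ)
  obtain ⟨v, χ, hv0, hχ, hχS⟩ := exists_eigenvector_ne_zero_on ρ (RingHom.ker θ).primeCompl
    (fun s hs h0 => hs (RingHom.mem_ker.mpr (hann s h0)))
  have hinj : Function.Injective (fun c : ℂ => c • v) := smul_left_injective ℂ hv0
  -- the eigencharacter is a ring homomorphism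
  let lamC : T →+* ℂ :=
    { toFun := χ
      map_one' := hinj (by simp only [← hχ, map_one, one_smul, Module.End.one_apply])
      map_mul' := fun a b => hinj (by
        simp only [← hχ, map_mul, Module.End.mul_apply, mul_smul]
        rw [hχ b, map_smul, hχ a, smul_comm])
      map_zero' := hinj (by simp only [← hχ, map_zero, zero_smul, LinearMap.zero_apply])
      map_add' := fun a b => hinj (by
        simp only [← hχ, map_add, LinearMap.add_apply, add_smul]) }
  have hlamC : ∀ t, lamC t = χ t := fun _ => rfl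
  -- integrality of the eigenvalues
  have hintχ : ∀ t, lamC t ∈ integralClosure ℤ ℂ := by
    intro t
    obtain ⟨P, hPm, hP⟩ := hint t
    refine ⟨P, hPm, ?_⟩
    have hev : (ρ t).HasEigenvector (χ t) v :=
      ⟨Module.End.mem_eigenspace_iff.mpr (hχ t), hv0⟩
    have h1 : aeval (ρ t) (P.map (algebraMap ℤ ℂ)) v = (P.map (algebraMap ℤ ℂ)).eval (χ t) • v :=
      Module.End.aeval_apply_of_hasEigenvector hev
    rw [aeval_map_algebraMap, hP, LinearMap.zero_apply] at h1
    have h2 : (P.map (algebraMap ℤ ℂ)).eval (χ t) = 0 := by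
      by_contra hne
      exact hv0 ((smul_eq_zero.mp h1.symm).resolve_left hne)
    rw [eval_map] at h2
    exact h2
  let lam : T →+* integralClosure ℤ ℂ := lamC.codRestrict (integralClosure ℤ ℂ) hintχ
  have hlam : ∀ t, ((lam t : integralClosure ℤ ℂ) : ℂ) = χ t := fun _ => rfl
  -- lying over
  let _ : Algebra T (integralClosure ℤ ℂ) := lam.toAlgebra
  have : Algebra.IsIntegral T (integralClosure ℤ ℂ) :=
    ⟨fun z => (integralClosure.isIntegral z).tower_top⟩
  have hker : RingHom.ker (algebraMap T (integralClosure ℤ ℂ)) ≤ RingHom.ker θ := by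
    intro t ht
    by_contra hnot
    have h1 : lam t = 0 := ht
    have h2 : χ t = 0 := by rw [← hlam, h1]; rfl
    exact hχS t hnot h2
  obtain ⟨Q, hQmax, hQ⟩ :=
    Ideal.exists_ideal_over_maximal_of_isIntegral (S := integralClosure ℤ ℂ) (RingHom.ker θ) hker
  have hmemQ : ∀ t : T, θ t = 0 → lam t ∈ Q := by
    intro t ht
    have : t ∈ Q.comap (algebraMap T (integralClosure ℤ ℂ)) := by
      rw [hQ]; exact RingHom.mem_ker.mpr ht
    exact this
  refine ⟨lam, Q, v, hQmax, ?_, ?_, hv0, fun t => ?_⟩
  · have := hmemQ (p : T) (by rw [map_natCast]; exact ZMod.natCast_self p)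
    rwa [map_natCast] at this
  · intro t n htn
    have := hmemQ (t - (n : T)) (by rw [map_sub, map_intCast, htn, sub_self])
    rwa [map_sub, map_intCast] at this
  · rw [hlam]
    exact hχ t

end Fermat.Agent.S41lib.SK
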