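/-
S41 (level raising), block SK (algebraic skeleton), part 1:
double orthogonal of a sublattice with respect to a nondegenerate reflexive integral bilinear form
is contained in its saturation.
-/
import Mathlib

namespace Fermat.Agent.S41lib.SK

open Module

section Coord

variable {B : Type*} [AddCommGroup B] {ι : Type*}

/-- rational coordinates of a lattice vector -/
noncomputable def ratCoord (e : Basis ι ℤ B) : B →ₗ[ℤ] (ι → ℚ) where
  toFun b i := (e.repr b i : ℚ)
  map_add' x y := by ext i; simp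
  map_smul' n x := by ext i; simp

theorem ratCoord_apply (e : Basis ι ℤ B) (b : B) (i : ι) : ratCoord e b i = (e.repr b i : ℚ) := rfl

theorem ratCoord_injective (e : Basis ι ℤ B) : Function.Injective (ratCoord e) := by
  intro x y h
  apply e.repr.injective
  ext i
  have := congr_fun h i
  simpa [ratCoord_apply] using this

/-- every rational vector is an integer multiple away from a lattice vector -/
theorem exists_ratCoord_eq_smul [Fintype ι] (e : Basis ι ℤ B) (v : ι → ℚ) :
    ∃ (n : ℤ) (b : B), n ≠ 0 ∧ ratCoord e b = (n : ℚ) • v := by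
  classical
  let n : ℕ := ∏ i, (v i).den
  have hn : n ≠ 0 := Finset.prod_ne_zero_iff.mpr fun i _ => (v i).den_ne_zero
  have hint : ∀ i, ∃ z : ℤ, (z : ℚ) = (n : ℚ) * v i := by
    intro i
    have hdvd : (v i).den ∣ n := Finset.dvd_prod_of_mem _ (Finset.mem_univ i)
    obtain ⟨m, hm⟩ := hdvd
    refine ⟨m * (v i).num, ?_⟩
    have h1 : ((v i).den : ℚ) * v i = (v i).num := Rat.den_mul_eq_num (v i)
    rw [hm]
    push_cast
    rw [← h1]
    ring
  choose z hz using hint
  refine ⟨n, e.repr.symm (Finsupp.equivFunOnFinite.symm z), by exact_mod_cast hn, ?_⟩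
  ext i
  rw [ratCoord_apply, LinearEquiv.apply_symm_apply]
  simp only [Pi.smul_apply, smul_eq_mul, Int.cast_natCast]
  exact hz i

section Form

variable [Fintype ι] [DecidableEq ι]

/-- the rational bilinear form with the same Gram matrix -/
noncomputable def ratForm (e : Basis ι ℤ B) (Φ : LinearMap.BilinForm ℤ B) :
    LinearMap.BilinForm ℚ (ι → ℚ) :=
  Matrix.toBilin' ((LinearMap.BilinForm.toMatrix e Φ).map (Int.cast : ℤ → ℚ))

theorem ratForm_ratCoord (e : Basis ι ℤ B) (Φ : LinearMap.BilinForm ℤ B) (x y : B) :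
    ratForm e Φ (ratCoord e x) (ratCoord e y) = (Φ x y : ℚ) := by
  rw [ratForm, Matrix.toBilin'_apply', LinearMap.BilinForm.apply_eq_dotProduct_toMatrix_mulVec e Φ x y]
  simp only [dotProduct, Matrix.mulVec, ratCoord_apply, Matrix.map_apply]
  push_cast
  rfl

theorem ratForm_nondegenerate (e : Basis ι ℤ B) (Φ : LinearMap.BilinForm ℤ B)
    (hnd : Φ.Nondegenerate) : (ratForm e Φ).Nondegenerate := by
  apply LinearMap.BilinForm.nondegenerate_toBilin'_of_det_ne_zero'
  have h1 : (LinearMap.BilinForm.toMatrix e Φ).det ≠ 0 :=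
    (LinearMap.BilinForm.nondegenerate_iff_det_ne_zero e).mp hnd
  have h2 : ((LinearMap.BilinForm.toMatrix e Φ).map (Int.cast : ℤ → ℚ)).det
      = (((LinearMap.BilinForm.toMatrix e Φ).det : ℤ) : ℚ) :=
    ((Int.castRingHom ℚ).map_det _).symm
  rw [h2]
  exact_mod_cast h1

theorem ratForm_smul_smul (e : Basis ι ℤ B) (Φ : LinearMap.BilinForm ℤ B) (a b : ℚ)
    (x y : ι → ℚ) : ratForm e Φ (a • x) (b • y) = a * b * ratForm e Φ x y := by
  simp only [map_smul, LinearMap.smul_apply, smul_eq_mul]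
  ring

theorem ratForm_isRefl (e : Basis ι ℤ B) (Φ : LinearMap.BilinForm ℤ B) (hrefl : Φ.IsRefl) :
    (ratForm e Φ).IsRefl := by
  intro x y hxy
  obtain ⟨n, bx, hn, hbx⟩ := exists_ratCoord_eq_smul e x
  obtain ⟨m, by', hm, hby⟩ := exists_ratCoord_eq_smul e y
  have h1 : ((Φ bx by' : ℤ) : ℚ) = 0 := by
    rw [← ratForm_ratCoord e Φ, hbx, hby, ratForm_smul_smul, hxy, mul_zero]
  have h2 : Φ by' bx = 0 := hrefl _ _ (by exact_mod_cast h1)
  have h3 : (m : ℚ) * (n : ℚ) * ratForm e Φ y x = 0 := by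
    have := ratForm_ratCoord e Φ by' bx
    rw [hbx, hby, ratForm_smul_smul, h2] at this
    simpa using this
  have hn' : (n : ℚ) ≠ 0 := by exact_mod_cast hn
  have hm' : (m : ℚ) ≠ 0 := by exact_mod_cast hm
  exact (mul_eq_zero.mp h3).resolve_left (mul_ne_zero hm' hn')

omit [Fintype ι] [DecidableEq ι] in
/-- elements of the rational span of a lattice are integer multiples away from the lattice -/
theorem exists_zsmul_eq_ratCoord_of_mem_span (e : Basis ι ℤ B) (W : Submodule ℤ B) (v : ι → ℚ)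
    (hv : v ∈ Submodule.span ℚ (ratCoord e '' (W : Set B))) :
    ∃ (n : ℤ) (w : B), n ≠ 0 ∧ w ∈ W ∧ ratCoord e w = (n : ℚ) • v := by
  induction hv using Submodule.span_induction with
  | mem x hx =>
    obtain ⟨w, hw, rfl⟩ := hx
    exact ⟨1, w, one_ne_zero, hw, by simp⟩
  | zero => exact ⟨1, 0, one_ne_zero, W.zero_mem, by simp⟩
  | add x y _ _ hx hy =>
    obtain ⟨n, w, hn, hw, h1⟩ := hx
    obtain ⟨m, w', hm, hw', h2⟩ := hy
    refine ⟨n * m, m • w + n • w', mul_ne_zero hn hm, W.add_mem (W.smul_mem _ hw) (W.smul_mem _ hw'), ?_⟩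
    rw [map_add, map_smul, map_smul, h1, h2, ← Int.cast_smul_eq_zsmul ℚ m,
      ← Int.cast_smul_eq_zsmul ℚ n]
    ext i
    simp only [Pi.add_apply, Pi.smul_apply, smul_eq_mul, Int.cast_mul]
    ring
  | smul q x _ hx =>
    obtain ⟨n, w, hn, hw, h1⟩ := hx
    refine ⟨(q.den : ℤ) * n, q.num • w, mul_ne_zero (by exact_mod_cast q.den_ne_zero) hn,
      W.smul_mem _ hw, ?_⟩
    rw [map_smul, h1, ← Int.cast_smul_eq_zsmul ℚ q.num]
    ext i
    simp only [Pi.smul_apply, smul_eq_mul, Int.cast_mul, Int.cast_natCast]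
    have hq : (q.den : ℚ) * q = q.num := Rat.den_mul_eq_num q
    calc (q.num : ℚ) * ((n : ℚ) * x i) = ((q.den : ℚ) * q) * ((n : ℚ) * x i) := by rw [hq]
      _ = (q.den : ℚ) * (n : ℚ) * (q * x i) := by ring

end Form

end Coord

/-- **Double orthogonal over `ℤ`.** For a nondegenerate reflexive integral bilinear form on a finite
free `ℤ`-module, every vector of `(W^⊥)^⊥` has a nonzero integer multiple in `W`. -/
theorem exists_zsmul_mem_of_mem_orthogonal_orthogonal {B : Type*} [AddCommGroup B]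
    [Module.Free ℤ B] [Module.Finite ℤ B]
    (Φ : LinearMap.BilinForm ℤ B) (hnd : Φ.Nondegenerate) (hrefl : Φ.IsRefl) (W : Submodule ℤ B)
    (b : B) (hb : b ∈ Φ.orthogonal (Φ.orthogonal W)) : ∃ n : ℤ, n ≠ 0 ∧ n • b ∈ W := by
  classical
  let e := Module.Free.chooseBasis ℤ B
  have hΨnd := ratForm_nondegenerate e Φ hnd
  have hΨrefl := ratForm_isRefl e Φ hrefl
  set WQ : Submodule ℚ (Module.Free.ChooseBasisIndex ℤ B → ℚ) :=
    Submodule.span ℚ (ratCoord e '' (W : Set B)) with hWQ
  have hmem : ratCoord e b ∈ (ratForm e Φ).orthogonal ((ratForm e Φ).orthogonal WQ) := by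
    rw [LinearMap.BilinForm.mem_orthogonal_iff]
    intro v hv
    rw [LinearMap.BilinForm.mem_orthogonal_iff] at hv
    obtain ⟨n, b'', hn, hb''⟩ := exists_ratCoord_eq_smul e v
    have hb''W : b'' ∈ Φ.orthogonal W := by
      rw [LinearMap.BilinForm.mem_orthogonal_iff]
      intro w hw
      have h1 : ratForm e Φ (ratCoord e w) v = 0 :=
        hv _ (Submodule.subset_span ⟨w, hw, rfl⟩)
      have h2 : ((Φ w b'' : ℤ) : ℚ) = 0 := by
        rw [← ratForm_ratCoord e Φ, hb'', map_smul, h1, smul_zero]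
      show Φ w b'' = 0
      exact_mod_cast h2
    have h3 : Φ b'' b = 0 := (LinearMap.BilinForm.mem_orthogonal_iff.mp hb) b'' hb''W
    have h4 : (n : ℚ) * ratForm e Φ v (ratCoord e b) = 0 := by
      have := ratForm_ratCoord e Φ b'' b
      rw [hb'', map_smul, LinearMap.smul_apply, h3] at this
      simpa using this
    have hn' : (n : ℚ) ≠ 0 := by exact_mod_cast hn
    show ratForm e Φ v (ratCoord e b) = 0
    exact (mul_eq_zero.mp h4).resolve_left hn'
  rw [LinearMap.BilinForm.orthogonal_orthogonal hΨnd hΨrefl] at hmem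
  obtain ⟨n, w, hn, hw, h⟩ := exists_zsmul_eq_ratCoord_of_mem_span e W _ hmem
  refine ⟨n, hn, ?_⟩
  have : w = n • b := by
    apply ratCoord_injective e
    rw [h, map_smul]
    ext i
    simp
  rw [← this]
  exact hw

end Fermat.Agent.S41lib.SK
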