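/-
S41 (level raising), block SK (algebraic skeleton), part 2: the Ribet congruence-module argument.

`A` (= H_N × H_N) and `B` (= H_{Nq'}) are lattices with an action of a commutative ring `T`
(the anemic Hecke algebra), `α : A → B` and `β : B → A` are adjoint `T`-linear maps (the two degeneracy
maps and their transposes), `θ : T → 𝔽_p` is an eigensystem.  If
* (Ihara) the kernel of `α` mod `p` is killed by some `u ∈ T` with `θ u ≠ 0`, and
* (level-raising congruence) some `θ`-eigenvector `x` of `A/p` is killed by `β ∘ α` mod `p`,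
then `θ` is in the support of `ker β`: every `t ∈ T` killing `ker β` has `θ t = 0`.
-/
import Mathlib
import Fermat.Agent.S41lib.SK.Orth

namespace Fermat.Agent.S41lib.SK

open Module

section Ihara

variable {T A B : Type*} [CommRing T] [AddCommGroup A] [AddCommGroup B] [Module T A] [Module T B]

/-- If `u` kills the kernel of `α` mod `p` then `u ^ k` maps the `p ^ k`-division hull of the image of
`α` into the image of `α`. -/
theorem pow_smul_mem_range_of_ihara [Module.IsTorsionFree ℤ B] (p : ℕ) (hp : p ≠ 0) (α : A →ₗ[T] B) (u : T)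
    (hIhara : ∀ a : A, (∃ b : B, α a = (p : ℤ) • b) → ∃ a' : A, u • a = (p : ℤ) • a') :
    ∀ (k : ℕ) (s : B) (a : A), ((p : ℤ) ^ k) • s = α a → ∃ a' : A, (u ^ k) • s = α a' := by
  intro k
  induction k with
  | zero =>
    intro s a h
    exact ⟨a, by simpa using h⟩
  | succ k ih =>
    intro s a h
    obtain ⟨a₁, ha₁⟩ := hIhara a ⟨((p : ℤ) ^ k) • s, by rw [← h, pow_succ, mul_comm, mul_smul]⟩
    have h1 : (p : ℤ) • (((p : ℤ) ^ k) • (u • s)) = (p : ℤ) • α a₁ := by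
      calc (p : ℤ) • (((p : ℤ) ^ k) • (u • s)) = ((p : ℤ) ^ (k + 1)) • (u • s) := by
            rw [pow_succ, mul_comm, mul_smul]
        _ = u • (((p : ℤ) ^ (k + 1)) • s) := by rw [smul_comm]
        _ = u • α a := by rw [h]
        _ = α (u • a) := by rw [map_smul]
        _ = α ((p : ℤ) • a₁) := by rw [ha₁]
        _ = (p : ℤ) • α a₁ := by rw [map_zsmul]
    have hp' : (p : ℤ) ≠ 0 := by exact_mod_cast hp
    have h2 : ((p : ℤ) ^ k) • (u • s) = α a₁ := smul_right_injective B hp' h1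
    obtain ⟨a', ha'⟩ := ih (u • s) a₁ h2
    exact ⟨a', by rw [pow_succ, mul_smul, ha']⟩

end Ihara

section Main

variable {T A B : Type*} [CommRing T] [AddCommGroup A] [AddCommGroup B] [Module T A] [Module T B]

/-- Bezout: if `c • x ∈ pA` with `p ∤ c` then `x ∈ pA`. -/
theorem mem_smul_of_coprime_smul_mem {p : ℕ} (hp : p.Prime) (c : ℤ) (hc : ¬ (p : ℤ) ∣ c) (x : A)
    (h : ∃ a' : A, c • x = (p : ℤ) • a') : ∃ a' : A, x = (p : ℤ) • a' := by
  obtain ⟨a', ha'⟩ := h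
  have hcop : IsCoprime (p : ℤ) c :=
    (Irreducible.coprime_iff_not_dvd (Nat.prime_iff_prime_int.mp hp).irreducible).mpr hc
  obtain ⟨r, s, hrs⟩ := hcop
  refine ⟨r • x + s • a', ?_⟩
  calc x = (1 : ℤ) • x := (one_smul _ _).symm
    _ = (r * p + s * c) • x := by rw [hrs]
    _ = (p : ℤ) • (r • x + s • a') := by
      rw [add_smul, mul_smul, mul_smul, ha', smul_add, smul_comm (p : ℤ) r, smul_comm (p : ℤ) s]

theorem intCast_ne_zero_of_not_dvd {p : ℕ} (m : ℤ) (hm : ¬ (p : ℤ) ∣ m) : (m : ZMod p) ≠ 0 := by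
  intro h
  exact hm ((ZMod.intCast_zmod_eq_zero_iff_dvd m p).mp h)

theorem not_dvd_of_intCast_ne_zero {p : ℕ} (c : ℤ) (hc : (c : ZMod p) ≠ 0) : ¬ (p : ℤ) ∣ c := by
  intro h
  exact hc ((ZMod.intCast_zmod_eq_zero_iff_dvd c p).mpr h)

/-- **The level-raising skeleton.** -/
theorem ann_le_ker [Module.Free ℤ B] [Module.Finite ℤ B]
    {p : ℕ} [hpF : Fact p.Prime] (θ : T →+* ZMod p)
    (α : A →ₗ[T] B) (β : B →ₗ[T] A)
    (ΦA : LinearMap.BilinForm ℤ A) (ΦB : LinearMap.BilinForm ℤ B)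
    (hadj : ∀ a b, ΦB (α a) b = ΦA a (β b))
    (hsaB : ∀ (t : T) (b b' : B), ΦB (t • b) b' = ΦB b (t • b'))
    (hndA : ∀ a₀ : A, (∀ a, ΦA a a₀ = 0) → a₀ = 0)
    (hndB : ΦB.Nondegenerate) (hreflB : ΦB.IsRefl)
    (hperfB : ∀ y : B, (∀ b' : B, (p : ℤ) ∣ ΦB b' y) → ∃ y' : B, y = (p : ℤ) • y')
    (u : T) (hu : θ u ≠ 0)
    (hIhara : ∀ a : A, (∃ b : B, α a = (p : ℤ) • b) → ∃ a' : A, u • a = (p : ℤ) • a')
    (x : A) (hx : ¬ ∃ a' : A, x = (p : ℤ) • a')
    (hxeig : ∀ (t : T) (n : ℤ), θ t = (n : ZMod p) → ∃ a' : A, t • x - n • x = (p : ℤ) • a')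
    (hLR : ∃ a' : A, β (α x) = (p : ℤ) • a')
    (t : T) (ht : ∀ k : B, β k = 0 → t • k = 0) : θ t = 0 := by
  have hp : p.Prime := hpF.out
  by_contra hθt
  -- the image of `α` as a `ℤ`-submodule
  let W : Submodule ℤ B := (LinearMap.range α).restrictScalars ℤ
  have hW : ∀ b : B, b ∈ W ↔ ∃ a, α a = b := fun b => by
    simp only [W, Submodule.restrictScalars_mem, LinearMap.mem_range]
  -- Step A: `α x` pairs into `pℤ` with everything
  have hA : ∀ b' : B, (p : ℤ) ∣ ΦB b' (α x) := by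
    intro b'
    have h1 : t • b' ∈ ΦB.orthogonal (ΦB.orthogonal W) := by
      rw [LinearMap.BilinForm.mem_orthogonal_iff]
      intro k hk
      rw [LinearMap.BilinForm.mem_orthogonal_iff] at hk
      have hβk : β k = 0 := by
        apply hndA
        intro a
        rw [← hadj]
        exact hk (α a) ((hW _).mpr ⟨a, rfl⟩)
      show ΦB k (t • b') = 0
      rw [← hsaB, ht k hβk, map_zero, LinearMap.zero_apply]
    obtain ⟨n, hn, hnW⟩ := exists_zsmul_mem_of_mem_orthogonal_orthogonal ΦB hndB hreflB W _ h1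
    obtain ⟨a, ha⟩ := (hW _).mp hnW
    have hfin : FiniteMultiplicity (p : ℤ) n :=
      Int.finiteMultiplicity_iff.mpr ⟨by simpa using hp.ne_one, hn⟩
    obtain ⟨m, hnm, hm⟩ := hfin.exists_eq_pow_mul_and_not_dvd
    set k := multiplicity (p : ℤ) n with hk
    have ha' : ((p : ℤ) ^ k) • (m • (t • b')) = α a := by
      rw [ha, ← mul_smul, ← hnm]
    obtain ⟨a', ha''⟩ := pow_smul_mem_range_of_ihara p hp.ne_zero α u hIhara k _ a ha'
    -- the Hecke element `w`
    set w : T := u ^ k * ((m : T) * t) with hw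
    have hwb : w • b' = α a' := by
      rw [← ha'', hw, mul_smul, mul_smul, Int.cast_smul_eq_zsmul]
    have hθw : θ w ≠ 0 := by
      rw [hw, map_mul, map_mul, map_pow, map_intCast]
      exact mul_ne_zero (pow_ne_zero _ hu) (mul_ne_zero (intCast_ne_zero_of_not_dvd m hm) hθt)
    -- an integer lift of `θ w`
    obtain ⟨c, hc⟩ : ∃ c : ℤ, θ w = (c : ZMod p) := ⟨(θ w).val, by simp⟩
    have hcp : ¬ (p : ℤ) ∣ c := not_dvd_of_intCast_ne_zero c (hc ▸ hθw)
    obtain ⟨a₃, ha₃⟩ := hxeig w c hc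
    obtain ⟨a₄, ha₄⟩ := hLR
    have h2 : ΦB (w • b') (α x) = (p : ℤ) * ΦA a' a₄ := by
      rw [hwb, hadj, ha₄, map_smul, smul_eq_mul]
    have h3 : ΦB (w • b') (α x) = c * ΦB b' (α x) + (p : ℤ) * ΦB b' (α a₃) := by
      have h4 : w • x = c • x + (p : ℤ) • a₃ := by rw [← ha₃]; abel
      rw [hsaB, ← map_smul, h4, map_add, map_zsmul, map_zsmul, map_add, map_smul, map_smul,
        smul_eq_mul, smul_eq_mul]
    have h5 : (p : ℤ) ∣ c * ΦB b' (α x) := by
      have : c * ΦB b' (α x) = (p : ℤ) * (ΦA a' a₄ - ΦB b' (α a₃)) := by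
        rw [mul_sub, ← h2, h3]; ring
      exact ⟨_, this⟩
    exact ((Nat.prime_iff_prime_int.mp hp).dvd_or_dvd h5).resolve_left hcp
  -- Step B
  obtain ⟨y', hy'⟩ := hperfB (α x) hA
  obtain ⟨a₁, ha₁⟩ := hIhara x ⟨y', hy'⟩
  obtain ⟨cu, hcu⟩ : ∃ c : ℤ, θ u = (c : ZMod p) := ⟨(θ u).val, by simp⟩
  have hcup : ¬ (p : ℤ) ∣ cu := not_dvd_of_intCast_ne_zero cu (hcu ▸ hu)
  obtain ⟨a₂, ha₂⟩ := hxeig u cu hcu
  apply hx
  apply mem_smul_of_coprime_smul_mem hp cu hcup x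
  refine ⟨a₁ - a₂, ?_⟩
  rw [smul_sub, ← ha₁, ← ha₂]
  abel

end Main

end Fermat.Agent.S41lib.SK
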