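/-
S41 (level raising), block SK, part 5: wrappers.  The skeleton `ann_le_ker` for a commutative ring
acting through ring homomorphisms `T → End_ℤ(A)`, `T → End_ℤ(B)` (no `Module T` instances needed),
its combination with the Deligne–Serre lifting lemma, and the version where the ring is the
polynomial ring `MvPolynomial ι ℤ` acting through commuting families of operators.
-/
import Mathlib
import Fermat.Agent.S41lib.SK.Skeleton
import Fermat.Agent.S41lib.SK.Lift

namespace Fermat.Agent.S41lib.SK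

open Module

section RingHomForm

variable {T A B : Type*} [CommRing T] [AddCommGroup A] [AddCommGroup B]

/-- **The level-raising skeleton, ring-hom form.** -/
theorem ann_le_ker' [Module.Free ℤ B] [Module.Finite ℤ B]
    (ρA : T →+* Module.End ℤ A) (ρB : T →+* Module.End ℤ B)
    {p : ℕ} [Fact p.Prime] (θ : T →+* ZMod p)
    (α : A →ₗ[ℤ] B) (β : B →ₗ[ℤ] A)
    (hα : ∀ t a, α (ρA t a) = ρB t (α a)) (hβ : ∀ t b, β (ρB t b) = ρA t (β b))
    (ΦA : LinearMap.BilinForm ℤ A) (ΦB : LinearMap.BilinForm ℤ B)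
    (hadj : ∀ a b, ΦB (α a) b = ΦA a (β b))
    (hsaB : ∀ (t : T) (b b' : B), ΦB (ρB t b) b' = ΦB b (ρB t b'))
    (hndA : ∀ a₀ : A, (∀ a, ΦA a a₀ = 0) → a₀ = 0)
    (hndB : ΦB.Nondegenerate) (hreflB : ΦB.IsRefl)
    (hperfB : ∀ y : B, (∀ b' : B, (p : ℤ) ∣ ΦB b' y) → ∃ y' : B, y = (p : ℤ) • y')
    (u : T) (hu : θ u ≠ 0)
    (hIhara : ∀ a : A, (∃ b : B, α a = (p : ℤ) • b) → ∃ a' : A, ρA u a = (p : ℤ) • a')
    (x : A) (hx : ¬ ∃ a' : A, x = (p : ℤ) • a')
    (hxeig : ∀ (t : T) (n : ℤ), θ t = (n : ZMod p) → ∃ a' : A, ρA t x - n • x = (p : ℤ) • a')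
    (hLR : ∃ a' : A, β (α x) = (p : ℤ) • a')
    (t : T) (ht : ∀ k : B, β k = 0 → ρB t k = 0) : θ t = 0 := by
  let _ : Module T A := Module.compHom A ρA
  let _ : Module T B := Module.compHom B ρB
  have hsA : ∀ (t : T) (a : A), t • a = ρA t a := fun _ _ => rfl
  have hsB : ∀ (t : T) (b : B), t • b = ρB t b := fun _ _ => rfl
  let α' : A →ₗ[T] B :=
    { toFun := α
      map_add' := map_add α
      map_smul' := fun t a => by
        simp only [RingHom.id_apply]
        rw [hsA, hsB, hα] }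
  let β' : B →ₗ[T] A :=
    { toFun := β
      map_add' := map_add β
      map_smul' := fun t b => by
        simp only [RingHom.id_apply]
        rw [hsA, hsB, hβ] }
  exact ann_le_ker θ α' β' ΦA ΦB hadj hsaB hndA hndB hreflB hperfB u hu hIhara x hx hxeig hLR t ht

/-- **Abstract level raising.**  Skeleton plus Deligne–Serre lifting: under the hypotheses of the
skeleton, if `T` also acts on a finite-dimensional complex space `V` by integral operators and
every `t` vanishing on `V` kills `ker β` (the "new quotient is faithful on `V`" bridge), then `V`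
contains an eigenvector whose eigencharacter reduces to `θ`. -/
theorem level_raising_abstract [Module.Free ℤ B] [Module.Finite ℤ B]
    {V : Type*} [AddCommGroup V] [Module ℂ V] [FiniteDimensional ℂ V]
    (ρA : T →+* Module.End ℤ A) (ρB : T →+* Module.End ℤ B) (ρV : T →+* Module.End ℂ V)
    {p : ℕ} [Fact p.Prime] (θ : T →+* ZMod p)
    (α : A →ₗ[ℤ] B) (β : B →ₗ[ℤ] A)
    (hα : ∀ t a, α (ρA t a) = ρB t (α a)) (hβ : ∀ t b, β (ρB t b) = ρA t (β b))
    (ΦA : LinearMap.BilinForm ℤ A) (ΦB : LinearMap.BilinForm ℤ B)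
    (hadj : ∀ a b, ΦB (α a) b = ΦA a (β b))
    (hsaB : ∀ (t : T) (b b' : B), ΦB (ρB t b) b' = ΦB b (ρB t b'))
    (hndA : ∀ a₀ : A, (∀ a, ΦA a a₀ = 0) → a₀ = 0)
    (hndB : ΦB.Nondegenerate) (hreflB : ΦB.IsRefl)
    (hperfB : ∀ y : B, (∀ b' : B, (p : ℤ) ∣ ΦB b' y) → ∃ y' : B, y = (p : ℤ) • y')
    (u : T) (hu : θ u ≠ 0)
    (hIhara : ∀ a : A, (∃ b : B, α a = (p : ℤ) • b) → ∃ a' : A, ρA u a = (p : ℤ) • a')
    (x : A) (hx : ¬ ∃ a' : A, x = (p : ℤ) • a')
    (hxeig : ∀ (t : T) (n : ℤ), θ t = (n : ZMod p) → ∃ a' : A, ρA t x - n • x = (p : ℤ) • a')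
    (hLR : ∃ a' : A, β (α x) = (p : ℤ) • a')
    (hintV : ∀ t : T, IsIntegral ℤ (ρV t))
    (hbridge : ∀ t : T, ρV t = 0 → ∀ k : B, β k = 0 → ρB t k = 0) :
    ∃ (lam : T →+* integralClosure ℤ ℂ) (𝔪' : Ideal (integralClosure ℤ ℂ)) (v : V),
      𝔪'.IsMaximal ∧ (p : integralClosure ℤ ℂ) ∈ 𝔪' ∧
      (∀ (t : T) (n : ℤ), θ t = (n : ZMod p) → lam t - (n : integralClosure ℤ ℂ) ∈ 𝔪') ∧
      v ≠ 0 ∧ ∀ t : T, ρV t v = ((lam t : integralClosure ℤ ℂ) : ℂ) • v := by
  refine exists_eigenvector_lift ρV θ (fun t => ?_) (fun t h0 => ?_)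
  · obtain ⟨P, hPm, hP⟩ := hintV t
    exact ⟨P, hPm, by rw [Polynomial.aeval_def]; exact hP⟩
  · exact ann_le_ker' ρA ρB θ α β hα hβ ΦA ΦB hadj hsaB hndA hndB hreflB hperfB u hu hIhara
      x hx hxeig hLR t (hbridge t h0)

end RingHomForm

section Poly

variable {ι : Type*}

open scoped IsMulCommutative in
/-- A pairwise commuting family in a ring extends to a ring hom from the polynomial ring; if the
members of the family are integral over `ℤ` then so is every value. -/
theorem exists_polyHom {E : Type*} [Ring E] (tE : ι → E) (hcomm : ∀ i j, Commute (tE i) (tE j)) :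
    ∃ ρ : MvPolynomial ι ℤ →+* E, (∀ i, ρ (MvPolynomial.X i) = tE i) ∧
      ((∀ i, IsIntegral ℤ (tE i)) → ∀ t, IsIntegral ℤ (ρ t)) := by
  have hc : IsMulCommutative (Algebra.adjoin ℤ (Set.range tE)) :=
    Algebra.isMulCommutative_adjoin ℤ (by
      rintro _ ⟨i, rfl⟩ _ ⟨j, rfl⟩
      exact (hcomm i j).eq)
  set S := Algebra.adjoin ℤ (Set.range tE) with hS
  set g : ι → S := fun i => ⟨tE i, Algebra.subset_adjoin ⟨i, rfl⟩⟩ with hg
  refine ⟨(Subalgebra.val S).toRingHom.comp (MvPolynomial.aeval g).toRingHom, fun i => ?_, ?_⟩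
  · simp [hg]
  · intro hint t
    have hgi : ∀ i, IsIntegral ℤ (g i) := by
      intro i
      have := hint i
      rw [← isIntegral_algHom_iff (Subalgebra.val S) Subtype.val_injective]
      simpa [hg] using this
    have key : ∀ t : MvPolynomial ι ℤ, IsIntegral ℤ (MvPolynomial.aeval g t) := by
      intro t
      induction t using MvPolynomial.induction_on with
      | C c =>
        rw [MvPolynomial.aeval_C]
        exact isIntegral_algebraMap
      | add p q hp hq =>
        rw [map_add]; exact hp.add hq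
      | mul_X p i hp =>
        rw [map_mul, MvPolynomial.aeval_X]; exact hp.mul (hgi i)
    exact (key t).map (Subalgebra.val S)

/-- The action of the polynomial ring determined by a commuting family. -/
noncomputable def polyHom {E : Type*} [Ring E] (tE : ι → E)
    (hcomm : ∀ i j, Commute (tE i) (tE j)) : MvPolynomial ι ℤ →+* E :=
  (exists_polyHom tE hcomm).choose

theorem polyHom_X {E : Type*} [Ring E] (tE : ι → E) (hcomm : ∀ i j, Commute (tE i) (tE j))
    (i : ι) : polyHom tE hcomm (MvPolynomial.X i) = tE i :=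
  (exists_polyHom tE hcomm).choose_spec.1 i

theorem polyHom_isIntegral {E : Type*} [Ring E] (tE : ι → E)
    (hcomm : ∀ i j, Commute (tE i) (tE j)) (hint : ∀ i, IsIntegral ℤ (tE i))
    (t : MvPolynomial ι ℤ) : IsIntegral ℤ (polyHom tE hcomm t) :=
  (exists_polyHom tE hcomm).choose_spec.2 hint t

/-- Ring homs out of `MvPolynomial ι ℤ` are determined by the values on variables. -/
theorem polyHom_ext {E : Type*} [Ring E] (ρ ρ' : MvPolynomial ι ℤ →+* E)
    (h : ∀ i, ρ (MvPolynomial.X i) = ρ' (MvPolynomial.X i)) : ρ = ρ' := by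
  refine MvPolynomial.ringHom_ext (fun c => ?_) h
  have h1 : (MvPolynomial.C c : MvPolynomial ι ℤ) = (c : MvPolynomial ι ℤ) := by simp
  rw [h1, map_intCast, map_intCast]

theorem polyHom_C_apply {A : Type*} [AddCommGroup A] (ρA : MvPolynomial ι ℤ →+* Module.End ℤ A)
    (c : ℤ) (a : A) : ρA (MvPolynomial.C c) a = c • a := by
  have h1 : (MvPolynomial.C c : MvPolynomial ι ℤ) = (c : MvPolynomial ι ℤ) := by simp
  rw [h1, map_intCast]
  simp

/-- Two polynomial actions intertwined on the variables are intertwined. -/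
theorem polyHom_intertwine {A B : Type*} [AddCommGroup A] [AddCommGroup B]
    (ρA : MvPolynomial ι ℤ →+* Module.End ℤ A) (ρB : MvPolynomial ι ℤ →+* Module.End ℤ B)
    (α : A →ₗ[ℤ] B) (h : ∀ i a, α (ρA (MvPolynomial.X i) a) = ρB (MvPolynomial.X i) (α a))
    (t : MvPolynomial ι ℤ) (a : A) : α (ρA t a) = ρB t (α a) := by
  induction t using MvPolynomial.induction_on generalizing a with
  | C c => rw [polyHom_C_apply, polyHom_C_apply, map_zsmul]
  | add p q hp hq => simp [map_add, hp, hq]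
  | mul_X p i hp =>
    rw [map_mul, map_mul]
    simp only [Module.End.mul_apply]
    rw [hp, h]

/-- Self-adjointness on the variables gives self-adjointness of the polynomial action. -/
theorem polyHom_selfAdjoint {B : Type*} [AddCommGroup B]
    (ρB : MvPolynomial ι ℤ →+* Module.End ℤ B) (ΦB : LinearMap.BilinForm ℤ B)
    (h : ∀ i b b', ΦB (ρB (MvPolynomial.X i) b) b' = ΦB b (ρB (MvPolynomial.X i) b'))
    (t : MvPolynomial ι ℤ) (b b' : B) : ΦB (ρB t b) b' = ΦB b (ρB t b') := by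
  induction t using MvPolynomial.induction_on generalizing b b' with
  | C c => rw [polyHom_C_apply, polyHom_C_apply, map_zsmul, map_zsmul]; rfl
  | add p q hp hq => simp [map_add, hp, hq]
  | mul_X p i hp =>
    calc ΦB (ρB (p * MvPolynomial.X i) b) b'
        = ΦB (ρB p (ρB (MvPolynomial.X i) b)) b' := by rw [map_mul, Module.End.mul_apply]
      _ = ΦB b (ρB (MvPolynomial.X i) (ρB p b')) := by rw [hp, h]
      _ = ΦB b (ρB (MvPolynomial.X i * p) b') := by rw [map_mul, Module.End.mul_apply]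
      _ = ΦB b (ρB (p * MvPolynomial.X i) b') := by rw [mul_comm]

/-- An eigenvector modulo `p` for the variables is an eigenvector modulo `p` for the polynomial
action, with eigenvalue the evaluation of the polynomial. -/
theorem polyHom_eigen {A : Type*} [AddCommGroup A] (ρA : MvPolynomial ι ℤ →+* Module.End ℤ A)
    (p : ℤ) (n : ι → ℤ) (x : A)
    (h : ∀ i, ∃ a' : A, ρA (MvPolynomial.X i) x - n i • x = p • a') (t : MvPolynomial ι ℤ) :
    ∃ a' : A, ρA t x - (MvPolynomial.eval n t) • x = p • a' := by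
  induction t using MvPolynomial.induction_on with
  | C c =>
    refine ⟨0, ?_⟩
    rw [polyHom_C_apply, MvPolynomial.eval_C, sub_self, smul_zero]
  | add s t hs ht =>
    obtain ⟨a1, h1⟩ := hs
    obtain ⟨a2, h2⟩ := ht
    refine ⟨a1 + a2, ?_⟩
    rw [map_add, LinearMap.add_apply, map_add, add_smul, smul_add, ← h1, ← h2]
    abel
  | mul_X s i hs =>
    obtain ⟨a1, h1⟩ := hs
    obtain ⟨a2, h2⟩ := h i
    refine ⟨n i • a1 + ρA s a2, ?_⟩
    have e1 : ρA (MvPolynomial.X i) x = n i • x + p • a2 := by rw [← h2]; abel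
    have e2 : ρA s x = (MvPolynomial.eval n s) • x + p • a1 := by rw [← h1]; abel
    rw [map_mul, Module.End.mul_apply, e1, map_add, map_zsmul, map_zsmul, e2, map_mul,
      MvPolynomial.eval_X, smul_add, smul_add, mul_smul, smul_comm (n i) p a1,
      smul_comm (n i) (MvPolynomial.eval n s) x]
    abel

end Poly

section Family

variable {ι A B V : Type*} [AddCommGroup A] [AddCommGroup B]
  [AddCommGroup V] [Module ℂ V] [FiniteDimensional ℂ V]

/-- **Abstract level raising, family form.**  All hypotheses are on the generators `tA i`, `tB i`,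
`tV i` (commuting families, e.g. the Hecke operators `T_ℓ` for `ℓ` prime to the level) except the
bridge, which concerns integer polynomials in the generators. -/
theorem level_raising_family [Module.Free ℤ B] [Module.Finite ℤ B] {p : ℕ} [Fact p.Prime]
    (tA : ι → Module.End ℤ A) (tB : ι → Module.End ℤ B) (tV : ι → Module.End ℂ V)
    (hcA : ∀ i j, Commute (tA i) (tA j)) (hcB : ∀ i j, Commute (tB i) (tB j))
    (hcV : ∀ i j, Commute (tV i) (tV j))
    (hintV : ∀ i, IsIntegral ℤ (tV i))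
    (α : A →ₗ[ℤ] B) (β : B →ₗ[ℤ] A)
    (hα : ∀ i a, α (tA i a) = tB i (α a)) (hβ : ∀ i b, β (tB i b) = tA i (β b))
    (ΦA : LinearMap.BilinForm ℤ A) (ΦB : LinearMap.BilinForm ℤ B)
    (hadj : ∀ a b, ΦB (α a) b = ΦA a (β b))
    (hsaB : ∀ i b b', ΦB (tB i b) b' = ΦB b (tB i b'))
    (hndA : ∀ a₀ : A, (∀ a, ΦA a a₀ = 0) → a₀ = 0)
    (hndB : ΦB.Nondegenerate) (hreflB : ΦB.IsRefl)
    (hperfB : ∀ y : B, (∀ b' : B, (p : ℤ) ∣ ΦB b' y) → ∃ y' : B, y = (p : ℤ) • y')
    (n : ι → ℤ) (i₀ : ι) (c : ℤ) (hu : ¬ (p : ℤ) ∣ n i₀ - c)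
    (hIhara : ∀ a : A, (∃ b : B, α a = (p : ℤ) • b) → ∃ a' : A, tA i₀ a - c • a = (p : ℤ) • a')
    (x : A) (hx : ¬ ∃ a' : A, x = (p : ℤ) • a')
    (hxeig : ∀ i, ∃ a' : A, tA i x - n i • x = (p : ℤ) • a')
    (hLR : ∃ a' : A, β (α x) = (p : ℤ) • a')
    (hbridge : ∀ t : MvPolynomial ι ℤ, polyHom tV hcV t = 0 →
      ∀ k : B, β k = 0 → polyHom tB hcB t k = 0) :
    ∃ (lam : ι → integralClosure ℤ ℂ) (𝔪' : Ideal (integralClosure ℤ ℂ)) (v : V),
      𝔪'.IsMaximal ∧ (p : integralClosure ℤ ℂ) ∈ 𝔪' ∧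
      (∀ i, lam i - (n i : integralClosure ℤ ℂ) ∈ 𝔪') ∧
      v ≠ 0 ∧ ∀ i, tV i v = ((lam i : integralClosure ℤ ℂ) : ℂ) • v := by
  set ρA := polyHom tA hcA with hρA
  set ρB := polyHom tB hcB with hρB
  set ρV := polyHom tV hcV with hρV
  let θ : MvPolynomial ι ℤ →+* ZMod p := (Int.castRingHom (ZMod p)).comp (MvPolynomial.eval n)
  have hθ : ∀ t, θ t = ((MvPolynomial.eval n t : ℤ) : ZMod p) := fun _ => rfl
  have hXA : ∀ i, ρA (MvPolynomial.X i) = tA i := polyHom_X tA hcA
  have hXB : ∀ i, ρB (MvPolynomial.X i) = tB i := polyHom_X tB hcB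
  have hXV : ∀ i, ρV (MvPolynomial.X i) = tV i := polyHom_X tV hcV
  obtain ⟨lam, 𝔪', v, hmax, hp, hlam, hv, heig⟩ :=
    level_raising_abstract ρA ρB ρV θ α β
      (polyHom_intertwine ρA ρB α (fun i a => by rw [hXA, hXB, hα]))
      (polyHom_intertwine ρB ρA β (fun i b => by rw [hXA, hXB, hβ]))
      ΦA ΦB hadj
      (polyHom_selfAdjoint ρB ΦB (fun i b b' => by rw [hXB, hsaB]))
      hndA hndB hreflB hperfB
      (MvPolynomial.X i₀ - MvPolynomial.C c)
      (by
        rw [hθ, map_sub, MvPolynomial.eval_X, MvPolynomial.eval_C]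
        intro h0
        exact hu ((ZMod.intCast_zmod_eq_zero_iff_dvd _ p).mp h0))
      (fun a ha => by
        obtain ⟨a', ha'⟩ := hIhara a ha
        refine ⟨a', ?_⟩
        rw [map_sub, LinearMap.sub_apply, hXA, polyHom_C_apply, ha'])
      x hx
      (fun t m htm => by
        obtain ⟨a1, h1⟩ := polyHom_eigen ρA (p : ℤ) n x (fun i => by rw [hXA]; exact hxeig i) t
        rw [hθ] at htm
        obtain ⟨k, hk⟩ := (ZMod.intCast_eq_intCast_iff_dvd_sub _ _ p).mp htm
        refine ⟨a1 - k • x, ?_⟩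
        have e : ρA t x = (MvPolynomial.eval n t) • x + (p : ℤ) • a1 := by rw [← h1]; abel
        have e' : m = MvPolynomial.eval n t + (p : ℤ) * k := by rw [← hk]; ring
        rw [e, e', add_smul, mul_smul, smul_sub]
        abel)
      hLR
      (polyHom_isIntegral tV hcV hintV)
      hbridge
  refine ⟨fun i => lam (MvPolynomial.X i), 𝔪', v, hmax, hp, fun i => ?_, hv, fun i => ?_⟩
  · exact hlam (MvPolynomial.X i) (n i) (by rw [hθ, MvPolynomial.eval_X])
  · rw [← hXV, heig]

end Family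

end Fermat.Agent.S41lib.SK
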