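/-
S41 (level raising), block SK, part 6 (= X2 of the plan; helper5): reduction of eigensystems.

From a complex common eigenvector of a commuting family of operators preserving a lattice `L`,
with algebraic-integer eigenvalues `μ i ≡ n i mod 𝔪` (`𝔪` maximal over `p`), produce a common
eigenvector modulo `p` in `L / p L` with eigenvalues `n i`.

* `cplx`, `mem_range_cplx`, `cplx_baseChange` : the complexification `ℂ ⊗ L → V` of `j : L → V`.
* `dvd_eval_of_maps_into_smul` : the crux: a polynomial in the `t i` mapping `L` into `p L` has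
  value divisible by `p` at `n`.
* `exists_ne_zero_forall_smul_eq_zero` : a Nakayama-type lemma for finite modules.
* `exists_modP_eigenvector_of_ker`, `exists_modP_eigenvector` : the output.
-/
import Mathlib
import Fermat.Agent.S41lib.SK.Family

set_option autoImplicit false

namespace Fermat.Agent.S41lib.SK

open scoped TensorProduct

section Complexify

variable {L V : Type*} [AddCommGroup L] [AddCommGroup V] [Module ℂ V]

/-- the complexification `ℂ ⊗ L → V` of `j : L → V`. -/
noncomputable def cplx (j : L →ₗ[ℤ] V) : (ℂ ⊗[ℤ] L) →ₗ[ℂ] V := j.liftBaseChange ℂ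

theorem cplx_tmul (j : L →ₗ[ℤ] V) (z : ℂ) (x : L) : cplx j (z ⊗ₜ x) = z • j x := rfl

theorem mem_range_cplx (j : L →ₗ[ℤ] V) {w : V} (hw : w ∈ Submodule.span ℂ (Set.range j)) :
    w ∈ LinearMap.range (cplx j) := by
  refine Submodule.span_le.mpr ?_ hw
  rintro _ ⟨x, rfl⟩
  exact ⟨1 ⊗ₜ x, by rw [cplx_tmul, one_smul]⟩

theorem cplx_baseChange (j : L →ₗ[ℤ] V) (f : Module.End ℤ L) (fV : Module.End ℂ V)
    (h : ∀ x, j (f x) = fV (j x)) (u : ℂ ⊗[ℤ] L) :
    cplx j (f.baseChange ℂ u) = fV (cplx j u) := by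
  induction u using TensorProduct.induction_on with
  | zero => simp
  | tmul z x => rw [LinearMap.baseChange_tmul, cplx_tmul, cplx_tmul, h, map_smul]
  | add u v hu hv => rw [map_add, map_add, map_add, map_add, hu, hv]

end Complexify

section Crux

variable {ι L V : Type*} [AddCommGroup L] [Module.Free ℤ L] [Module.Finite ℤ L]
  [AddCommGroup V] [Module ℂ V]

/-- **Crux.**  If the polynomial `s` in the operators `t i` maps `L` into `p L`, then `p` divides
`s(n)`. -/
theorem dvd_eval_of_maps_into_smul (j : L →ₗ[ℤ] V)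
    (t : ι → Module.End ℤ L) (hc : ∀ i i', Commute (t i) (t i'))
    (tV : ι → Module.End ℂ V) (hjt : ∀ i x, j (t i x) = tV i (j x))
    {w : V} (hw : w ∈ Submodule.span ℂ (Set.range j)) (hw0 : w ≠ 0)
    (μ : ι → integralClosure ℤ ℂ)
    (hμ : ∀ i, tV i w = ((μ i : integralClosure ℤ ℂ) : ℂ) • w)
    {p : ℕ} [Fact p.Prime] (𝔪 : Ideal (integralClosure ℤ ℂ)) (hmax : 𝔪.IsMaximal)
    (hp : (p : integralClosure ℤ ℂ) ∈ 𝔪)
    (n : ι → ℤ) (hn : ∀ i, μ i - (n i : integralClosure ℤ ℂ) ∈ 𝔪)
    (s : MvPolynomial ι ℤ) (hs : ∀ x, ∃ y, polyHom t hc s x = (p : ℤ) • y) :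
    (p : ℤ) ∣ MvPolynomial.eval n s := by
  classical
  have hpp : p.Prime := Fact.out
  have hp0 : (p : ℂ) ≠ 0 := by exact_mod_cast hpp.ne_zero
  -- a preimage of `w` in the complexification
  obtain ⟨c, hcw⟩ := mem_range_cplx j hw
  -- the action on the complexification
  set Θ : MvPolynomial ι ℤ →+* Module.End ℂ (ℂ ⊗[ℤ] L) :=
    (Module.End.baseChangeHom ℤ ℂ L).toRingHom.comp (polyHom t hc) with hΘ
  have hΘX : ∀ i, Θ (MvPolynomial.X i) = (t i).baseChange ℂ := by
    intro i
    rw [hΘ, RingHom.comp_apply, polyHom_X]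
    rfl
  -- (A) the image of `Θ s u` for `u` above the line `ℂ w`
  have hall : ∀ (s : MvPolynomial ι ℤ) (u : ℂ ⊗[ℤ] L) (z : ℂ), cplx j u = z • w →
      cplx j (Θ s u) = (((MvPolynomial.aeval μ s : integralClosure ℤ ℂ) : ℂ) * z) • w := by
    intro s
    induction s using MvPolynomial.induction_on with
    | C a =>
      intro u z hu
      have h1 : (MvPolynomial.C a : MvPolynomial ι ℤ) = (a : MvPolynomial ι ℤ) := by simp
      rw [h1, map_intCast, map_intCast]
      simp only [Module.End.intCast_apply]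
      rw [← Int.cast_smul_eq_zsmul ℂ, map_smul, hu, smul_smul]
      simp
    | add s1 s2 h1 h2 =>
      intro u z hu
      rw [map_add, LinearMap.add_apply, map_add, h1 u z hu, h2 u z hu, map_add]
      push_cast
      rw [add_mul, add_smul]
    | mul_X s1 i h1 =>
      intro u z hu
      have hstep : cplx j ((t i).baseChange ℂ u)
          = (((μ i : integralClosure ℤ ℂ) : ℂ) * z) • w := by
        rw [cplx_baseChange j (t i) (tV i) (hjt i), hu, map_smul, hμ i, smul_smul, mul_comm]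
      rw [map_mul, Module.End.mul_apply, hΘX, h1 _ _ hstep, map_mul, MvPolynomial.aeval_X]
      push_cast
      rw [mul_assoc]
  -- divide by `p`
  choose y hy using hs
  set b := Module.Free.chooseBasis ℤ L with hb
  set S : Module.End ℤ L := b.constr ℤ (fun k => y (b k)) with hS
  have hpS : polyHom t hc s = (p : ℤ) • S := by
    apply b.ext
    intro k
    rw [LinearMap.smul_apply, hS, Module.Basis.constr_basis, hy]
  set F : Module.End ℂ (ℂ ⊗[ℤ] L) := S.baseChange ℂ with hF
  have hΘs : Θ s = (p : ℤ) • F := by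
    rw [hΘ, RingHom.comp_apply, hpS, map_zsmul]
    rfl
  set σ : ℂ := ((MvPolynomial.aeval μ s : integralClosure ℤ ℂ) : ℂ) / (p : ℂ) with hσ
  -- (A') one step of `F`
  have hFstep : ∀ (u : ℂ ⊗[ℤ] L) (z : ℂ), cplx j u = z • w → cplx j (F u) = (σ * z) • w := by
    intro u z hu
    have h1 := hall s u z hu
    rw [hΘs, LinearMap.smul_apply] at h1
    have h2 : ((p : ℤ) • F u : ℂ ⊗[ℤ] L) = (p : ℂ) • F u := by
      rw [← Int.cast_smul_eq_zsmul ℂ]
      simp
    rw [h2, map_smul] at h1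
    have h3 : cplx j (F u) = (p : ℂ)⁻¹ • ((p : ℂ) • cplx j (F u)) := by
      rw [smul_smul, inv_mul_cancel₀ hp0, one_smul]
    rw [h3, h1, smul_smul, hσ]
    congr 1
    field_simp
  have hFpow : ∀ (k : ℕ) (u : ℂ ⊗[ℤ] L) (z : ℂ), cplx j u = z • w →
      cplx j ((F ^ k) u) = (σ ^ k * z) • w := by
    intro k
    induction k with
    | zero => intro u z hu; simpa using hu
    | succ k ih =>
      intro u z hu
      rw [pow_succ, Module.End.mul_apply, ih _ _ (hFstep u z hu), pow_succ, mul_assoc]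
  -- (C) polynomials in `F`
  have hpoly : ∀ Q : Polynomial ℤ,
      cplx j (Polynomial.aeval F Q c) = (Polynomial.eval₂ (algebraMap ℤ ℂ) σ Q) • w := by
    intro Q
    induction Q using Polynomial.induction_on' with
    | add Q1 Q2 h1 h2 =>
      rw [map_add, LinearMap.add_apply, map_add, h1, h2, Polynomial.eval₂_add, add_smul]
    | monomial k a =>
      rw [Polynomial.aeval_monomial, Polynomial.eval₂_monomial]
      have h1 : (algebraMap ℤ (Module.End ℂ (ℂ ⊗[ℤ] L)) a * F ^ k) c
          = (a : ℂ) • (F ^ k) c := by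
        rw [Module.End.mul_apply, Module.algebraMap_end_apply, ← Int.cast_smul_eq_zsmul ℂ]
      rw [h1, map_smul, hFpow k c 1 (by rw [hcw, one_smul]), smul_smul, mul_one]
      simp
  -- integrality of `σ`
  have hσint : IsIntegral ℤ σ := by
    refine ⟨S.charpoly, LinearMap.charpoly_monic S, ?_⟩
    have h1 : Polynomial.aeval F S.charpoly = 0 := by
      have h2 : F = Module.End.baseChangeHom ℤ ℂ L S := rfl
      rw [h2, Polynomial.aeval_algHom_apply, LinearMap.aeval_self_charpoly, map_zero]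
    have h3 := hpoly S.charpoly
    rw [h1, LinearMap.zero_apply, map_zero] at h3
    exact (smul_eq_zero.mp h3.symm).resolve_right hw0
  -- so `aeval μ s ∈ 𝔪`
  set σ' : integralClosure ℤ ℂ := ⟨σ, hσint⟩ with hσ'
  have hmem : MvPolynomial.aeval μ s ∈ 𝔪 := by
    have : MvPolynomial.aeval μ s = (p : integralClosure ℤ ℂ) * σ' := by
      apply Subtype.ext
      have h1 : ((σ' : integralClosure ℤ ℂ) : ℂ) = σ := rfl
      push_cast
      rw [h1, hσ]
      field_simp
    rw [this]
    exact 𝔪.mul_mem_right _ hp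
  -- compare `aeval μ` and `eval n` modulo `𝔪`
  have hcmp : MvPolynomial.aeval μ s - ((MvPolynomial.eval n s : ℤ) : integralClosure ℤ ℂ) ∈ 𝔪 := by
    have h1 : (Ideal.Quotient.mk 𝔪).comp
          (MvPolynomial.aeval μ : MvPolynomial ι ℤ →ₐ[ℤ] integralClosure ℤ ℂ).toRingHom
        = ((Ideal.Quotient.mk 𝔪).comp (Int.castRingHom (integralClosure ℤ ℂ))).comp
          (MvPolynomial.eval n) := by
      apply polyHom_ext
      intro i
      simp only [RingHom.comp_apply, MvPolynomial.eval_X, AlgHom.toRingHom_eq_coe,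
        RingHom.coe_coe, MvPolynomial.aeval_X]
      rw [Ideal.Quotient.eq]
      exact hn i
    have h2 := RingHom.congr_fun h1 s
    simp only [RingHom.comp_apply, AlgHom.toRingHom_eq_coe, RingHom.coe_coe] at h2
    rw [Ideal.Quotient.eq] at h2
    exact h2
  have hmem2 : ((MvPolynomial.eval n s : ℤ) : integralClosure ℤ ℂ) ∈ 𝔪 := by
    have := 𝔪.sub_mem hmem hcmp
    rwa [sub_sub_cancel] at this
  by_contra hnd
  have hcop : IsCoprime (p : ℤ) (MvPolynomial.eval n s) :=
    (Nat.prime_iff_prime_int.mp hpp).coprime_iff_not_dvd.mpr hnd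
  obtain ⟨u, v, huv⟩ := hcop
  have h1 : (1 : integralClosure ℤ ℂ) ∈ 𝔪 := by
    have : (1 : integralClosure ℤ ℂ) = (u : integralClosure ℤ ℂ) * (p : integralClosure ℤ ℂ)
        + (v : integralClosure ℤ ℂ) * ((MvPolynomial.eval n s : ℤ) : integralClosure ℤ ℂ) := by
      have := congrArg (Int.cast : ℤ → integralClosure ℤ ℂ) huv
      push_cast at this
      exact this.symm
    rw [this]
    exact 𝔪.add_mem (𝔪.mul_mem_left _ hp) (𝔪.mul_mem_left _ hmem2)
  exact hmax.ne_top ((Ideal.eq_top_iff_one _).mpr h1)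

end Crux

/-- A Nakayama-type lemma: if no `r ≡ 1 mod 𝔞` kills the finite module `M`, then `M` contains a
nonzero element killed by `𝔞`. -/
theorem exists_ne_zero_forall_smul_eq_zero {T M : Type*} [CommRing T] [AddCommGroup M]
    [Module T M] [Finite M] (𝔞 : Ideal T)
    (hQ : ∀ r : T, r - 1 ∈ 𝔞 → ∃ m : M, r • m ≠ 0) :
    ∃ m : M, m ≠ 0 ∧ ∀ a ∈ 𝔞, a • m = 0 := by
  -- generalise to submodules
  have key : ∀ k : ℕ, ∀ N : Submodule T M, Nat.card N = k →
      (∀ r : T, r - 1 ∈ 𝔞 → ∃ m ∈ N, r • m ≠ 0) →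
      ∃ m ∈ N, m ≠ 0 ∧ ∀ a ∈ 𝔞, a • m = 0 := by
    intro k
    induction k using Nat.strong_induction_on with
    | _ k ih =>
      intro N hN hQN
      have hfg : N.FG := Submodule.FG.of_finite
      by_cases hIN : N ≤ 𝔞 • N
      · -- Nakayama gives a contradiction
        obtain ⟨r, hr, hrN⟩ :=
          Submodule.exists_sub_one_mem_and_smul_eq_zero_of_fg_of_le_smul 𝔞 N hfg hIN
        obtain ⟨m, hm, hne⟩ := hQN r hr
        exact absurd (hrN m hm) hne
      · -- `𝔞 • N < N`
        have hlt : 𝔞 • N < N := lt_of_le_of_ne Submodule.smul_le_right (fun h => hIN h.ge)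
        by_cases hQ' : ∀ r : T, r - 1 ∈ 𝔞 → ∃ m ∈ 𝔞 • N, r • m ≠ 0
        · have hcard : Nat.card (𝔞 • N : Submodule T M) < k := by
            rw [← hN]
            have hss : ((𝔞 • N : Submodule T M) : Set M) ⊂ (N : Set M) := hlt
            exact Set.Finite.card_lt_card (Set.toFinite _) hss
          obtain ⟨m, hm, hm0, hma⟩ := ih _ hcard (𝔞 • N) rfl hQ'
          exact ⟨m, hlt.le hm, hm0, hma⟩
        · push Not at hQ'
          obtain ⟨r, hr, hrN⟩ := hQ'
          obtain ⟨m, hm, hne⟩ := hQN r hr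
          refine ⟨r • m, N.smul_mem r hm, hne, fun a ha => ?_⟩
          rw [smul_comm]
          exact hrN (a • m) (Submodule.smul_mem_smul ha hm)
  obtain ⟨m, -, hm0, hma⟩ := key _ ⊤ rfl (fun r hr => by
    obtain ⟨m, hm⟩ := hQ r hr
    exact ⟨m, Submodule.mem_top, hm⟩)
  exact ⟨m, hm0, hma⟩

/-- Abstract form: a commutative ring `T` acting on a finitely generated abelian group `L`, a
character `θ : T → 𝔽_p` such that every `s` mapping `L` into `p L` has `θ s = 0`.  Then there is
`x ∉ p L` with `s x ∈ p L` for all `s ∈ ker θ`. -/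
theorem exists_modP_eigenvector_of_ker {T L : Type*} [CommRing T] [AddCommGroup L]
    [Module.Finite ℤ L] (ρ : T →+* Module.End ℤ L) {p : ℕ} [Fact p.Prime] (θ : T →+* ZMod p)
    (hcrux : ∀ s : T, (∀ x, ∃ y, ρ s x = (p : ℤ) • y) → θ s = 0) :
    ∃ x : L, (¬ ∃ x', x = (p : ℤ) • x') ∧ ∀ s : T, θ s = 0 → ∃ x', ρ s x = (p : ℤ) • x' := by
  classical
  have hpp : p.Prime := Fact.out
  let instM : Module T L := Module.compHom L ρ
  have hsmul : ∀ (s : T) (x : L), s • x = ρ s x := fun _ _ => rfl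
  let pL : Submodule T L :=
    { carrier := {x | ∃ y, x = (p : ℤ) • y}
      add_mem' := by
        rintro _ _ ⟨y, rfl⟩ ⟨y', rfl⟩
        exact ⟨y + y', (smul_add _ _ _).symm⟩
      zero_mem' := ⟨0, (smul_zero _).symm⟩
      smul_mem' := by
        rintro s _ ⟨y, rfl⟩
        exact ⟨ρ s y, by rw [hsmul, map_zsmul]⟩ }
  have hmem : ∀ x : L, x ∈ pL ↔ ∃ y, x = (p : ℤ) • y := fun _ => Iff.rfl
  -- the quotient is finite
  have hfin : Finite (L ⧸ pL) := by
    let f : L →ₗ[ℤ] (L ⧸ pL) := (pL.mkQ).toAddMonoidHom.toIntLinearMap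
    have hf : Function.Surjective f := pL.mkQ_surjective
    have : Module.Finite ℤ (L ⧸ pL) := Module.Finite.of_surjective f hf
    refine Module.finite_of_fg_torsion (L ⧸ pL) ?_
    intro m
    obtain ⟨x, rfl⟩ := pL.mkQ_surjective m
    have hp0 : (p : ℤ) ∈ nonZeroDivisors ℤ :=
      mem_nonZeroDivisors_of_ne_zero (by exact_mod_cast hpp.ne_zero)
    refine ⟨⟨(p : ℤ), hp0⟩, ?_⟩
    change (p : ℤ) • (pL.mkQ x) = 0
    rw [← map_zsmul, Submodule.mkQ_apply, Submodule.Quotient.mk_eq_zero]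
    exact ⟨x, rfl⟩
  obtain ⟨m, hm0, hma⟩ := exists_ne_zero_forall_smul_eq_zero (M := L ⧸ pL) (RingHom.ker θ) (by
    intro r hr
    by_contra hcon
    push Not at hcon
    have h1 : θ r = 0 := by
      apply hcrux
      intro x
      have := hcon (Submodule.Quotient.mk x)
      rw [← Submodule.Quotient.mk_smul, Submodule.Quotient.mk_eq_zero] at this
      exact this
    have h2 : θ (r - 1) = 0 := hr
    rw [map_sub, h1, map_one, zero_sub, neg_eq_zero] at h2
    exact one_ne_zero h2)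
  obtain ⟨x, rfl⟩ := Submodule.Quotient.mk_surjective pL m
  refine ⟨x, ?_, ?_⟩
  · intro hx
    exact hm0 ((Submodule.Quotient.mk_eq_zero pL).mpr hx)
  · intro s hs
    have := hma s hs
    rw [← Submodule.Quotient.mk_smul, Submodule.Quotient.mk_eq_zero] at this
    exact this

section Main

variable {ι L V : Type*} [AddCommGroup L] [Module.Free ℤ L] [Module.Finite ℤ L]
  [AddCommGroup V] [Module ℂ V]

/-- **Reduction of eigensystems (SK6 / X2).**  `L` a free finitely generated `ℤ`-module with a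
commuting family `t i`, mapped by `j` to a complex vector space `V`; `tV i` operators on `V`
intertwined with `t i` by `j`.  If `w ≠ 0` in the complex span of `j L` is a common eigenvector of
the `tV i` with eigenvalues `μ i` (algebraic integers) and `μ i ≡ n i` modulo a maximal ideal
`𝔪 ∋ p`, then there is `x ∈ L`, `x ∉ p L`, with `t i x ≡ n i x` modulo `p L` for all `i`.
(No injectivity / independence hypothesis on `j`, no commutativity of the `tV i`.) -/
theorem exists_modP_eigenvector (j : L →ₗ[ℤ] V)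
    (t : ι → Module.End ℤ L) (hc : ∀ i i', Commute (t i) (t i'))
    (tV : ι → Module.End ℂ V) (hjt : ∀ i x, j (t i x) = tV i (j x))
    {w : V} (hw : w ∈ Submodule.span ℂ (Set.range j)) (hw0 : w ≠ 0)
    (μ : ι → integralClosure ℤ ℂ)
    (hμ : ∀ i, tV i w = ((μ i : integralClosure ℤ ℂ) : ℂ) • w)
    {p : ℕ} [Fact p.Prime] (𝔪 : Ideal (integralClosure ℤ ℂ)) (hmax : 𝔪.IsMaximal)
    (hp : (p : integralClosure ℤ ℂ) ∈ 𝔪)
    (n : ι → ℤ) (hn : ∀ i, μ i - (n i : integralClosure ℤ ℂ) ∈ 𝔪) :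
    ∃ x : L, (¬ ∃ x', x = (p : ℤ) • x') ∧ ∀ i, ∃ x', t i x - n i • x = (p : ℤ) • x' := by
  let θ : MvPolynomial ι ℤ →+* ZMod p := (Int.castRingHom (ZMod p)).comp (MvPolynomial.eval n)
  have hθ : ∀ s, θ s = ((MvPolynomial.eval n s : ℤ) : ZMod p) := fun _ => rfl
  obtain ⟨x, hx, hxs⟩ := exists_modP_eigenvector_of_ker (polyHom t hc) θ (fun s hs => by
    rw [hθ, ZMod.intCast_zmod_eq_zero_iff_dvd]
    exact dvd_eval_of_maps_into_smul j t hc tV hjt hw hw0 μ hμ 𝔪 hmax hp n hn s hs)
  refine ⟨x, hx, fun i => ?_⟩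
  obtain ⟨x', hx'⟩ := hxs (MvPolynomial.X i - MvPolynomial.C (n i)) (by
    rw [hθ, map_sub, MvPolynomial.eval_X, MvPolynomial.eval_C, sub_self, Int.cast_zero])
  refine ⟨x', ?_⟩
  rw [← hx', map_sub, LinearMap.sub_apply, polyHom_X, polyHom_C_apply]

end Main

end Fermat.Agent.S41lib.SK
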